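import Fermat.Agent.H18.ORD.NodalGlued
import Fermat.Agent.H53.ORD.UnrUniformizer
import Fermat.Agent.H95.FF.PlaceDense
import Fermat.Agent.H65.FF.PlaceUnrBasis

/-!
# P-ORD, block B1-LIFT, concrete input [DISC] (helper68)

`unrDisc` : for every place `A` of `ℚ̄` over a prime `p`, the inertia field is discretely valued
with uniformiser `p`, in the exact shape `Fermat.Agent.H18.ORD.UnrDisc p A` of helper18's
findings #553 : every nonzero inertia-fixed `c` has `c * p ^ n ∈ Aˣ` for some `n : ℤ`.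

Unconditional: `PlaceFacts` (helper95 `placeDense`, helper65 `placeUnrBasis`) + helper53's
`unrInt_associated_pow`.
-/

set_option autoImplicit false
set_option linter.unusedSectionVars false

noncomputable section

namespace Fermat.Agent.H68.ORD

open Fermat.Agent.H72.FF Fermat.Agent.H10.FF

/-- The place facts at every place over `p` (same as `Fermat.Agent.H72.FF.placeFactsStatement`,
with a small import closure). -/
theorem ud_placeFacts (p : ℕ) [Fact p.Prime] (A : ValuationSubring Qb)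
    (hA : A.LiesOverPrime p) : PlaceFacts p A :=
  ⟨hA, Fermat.Agent.H95.FF.placeDense p A hA, Fermat.Agent.H65.placeUnrBasis p A hA⟩

/-- An element of the unramified integers is a unit of `A` times a power of `p`. -/
theorem ud_unit_mul_pow (p : ℕ) [Fact p.Prime] (A : ValuationSubring Qb)
    (hA : A.LiesOverPrime p) (x : Qb) (hx : x ≠ 0) (hxA : x ∈ A)
    (hxI : ∀ σ ∈ A.inertiaSubgroupIn ℚ, σ x = x) :
    ∃ (n : ℕ) (u : Qb), u ∈ A ∧ u⁻¹ ∈ A ∧ x = (p : Qb) ^ n * u := by
  have hP := ud_placeFacts p A hA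
  have hx' : (⟨x, hxA, hxI⟩ : unrInt A) ≠ 0 := by
    intro h
    exact hx (congrArg Subtype.val h)
  obtain ⟨n, u, hu⟩ := Fermat.Agent.H53.unrInt_associated_pow hP hx'
  have h1 : (p : Qb) ^ n * ((u : unrInt A) : Qb) = x := by
    have := congrArg Subtype.val hu
    simpa using this
  have h2 : ((u : unrInt A) : Qb) * (((u⁻¹ : (unrInt A)ˣ) : unrInt A) : Qb) = 1 :=
    congrArg Subtype.val (Units.mul_inv u)
  have hu0 : ((u : unrInt A) : Qb) ≠ 0 := left_ne_zero_of_mul_eq_one h2
  have h3 : (((u : unrInt A) : Qb))⁻¹ = (((u⁻¹ : (unrInt A)ˣ) : unrInt A) : Qb) :=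
    (eq_inv_of_mul_eq_one_right h2).symm
  refine ⟨n, ((u : unrInt A) : Qb), (u : unrInt A).2.1, ?_, h1.symm⟩
  rw [h3]
  exact ((u⁻¹ : (unrInt A)ˣ) : unrInt A).2.1

/-- **[DISC]** the inertia field at a place over `p` is discretely valued, with uniformiser
`p`. -/
theorem unrDisc (p : ℕ) [Fact p.Prime] (A : ValuationSubring Qb) (hA : A.LiesOverPrime p) :
    Fermat.Agent.H18.ORD.UnrDisc p A := by
  intro c hc hfix
  have hp0 : (p : Qb) ≠ 0 := Nat.cast_ne_zero.mpr (Fact.out : p.Prime).ne_zero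
  rcases A.mem_or_inv_mem c with hcA | hcA
  · obtain ⟨n, u, hu, hu', hcu⟩ := ud_unit_mul_pow p A hA c hc hcA hfix
    have hu0 : u ≠ 0 := by
      rintro rfl
      rw [mul_zero] at hcu
      exact hc hcu
    have e : c * (p : Qb) ^ (-(n : ℤ)) = u := by
      rw [hcu, zpow_neg, zpow_natCast]
      field_simp
    refine ⟨-(n : ℤ), ?_, ?_⟩
    · rw [e]; exact hu
    · rw [e]; exact hu'
  · have hfix' : ∀ σ ∈ A.inertiaSubgroupIn ℚ, σ c⁻¹ = c⁻¹ := by
      intro σ hσ
      rw [map_inv₀, hfix σ hσ]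
    obtain ⟨n, u, hu, hu', hcu⟩ :=
      ud_unit_mul_pow p A hA c⁻¹ (inv_ne_zero hc) hcA hfix'
    have hu0 : u ≠ 0 := by
      rintro rfl
      rw [mul_zero] at hcu
      exact inv_ne_zero hc hcu
    have e : c * (p : Qb) ^ ((n : ℕ) : ℤ) = u⁻¹ := by
      have hc' : c = ((p : Qb) ^ n * u)⁻¹ := by rw [← hcu, inv_inv]
      rw [hc', zpow_natCast]
      field_simp
    refine ⟨(n : ℤ), ?_, ?_⟩
    · rw [e]; exact hu'
    · rw [e, inv_inv]; exact hu

end Fermat.Agent.H68.ORD

end
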