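import Fermat.Agent.H68.ORD.UnrDisc
import Fermat.Agent.H37.FF.UnrGNF
import Fermat.Agent.H74.ORD.NmGalFinal
import Fermat.Agent.H18.ORD.NodalDivDefs

/-!
# P-ORD, block B1-LIFT, concrete input [DIV] for the nodal data of `X₀(M p)` (helper68)

`unrDiv_nmG : Fermat.Agent.H18.ORD.UnrDiv p (nmG htot)` (helper18's findings #578) : an
inertia-fixed element of `V_∞ ∩ V_0` whose two reductions vanish is divisible by `p` in
`V_∞ ∩ V_0`; componentwise `unrDivOo_nmG`, `unrDivZero_nmG`, and the Gauss-ring form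
`udn_div_gauss` at every level `N` and every place `A` over `p`.

Proof: an inertia-fixed `u ≠ 0` is `c • ι a / ι b` with `c` in the inertia field and `a`, `b`
integral series with nonzero reductions (fixed-field descent of helper27 + the Gauss normal form
of helper66 over the inertia field); `u ∈ V_∞` gives `c ∈ A`, `red u = 0` gives `c ∈ 𝔪_A`, and
the inertia field is discretely valued with uniformiser `p` (`ud_unit_mul_pow`), so `c / p ∈ A`.
At `0`: transport by the Atkin-Lehner automorphism, which commutes with the Galois action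
(`Fermat.Agent.H74.ORD.nmW_galF_comm`).
-/

set_option autoImplicit false
set_option linter.unusedSectionVars false
set_option linter.style.haveILetI false
set_option synthInstance.maxHeartbeats 400000
set_option maxHeartbeats 1600000

noncomputable section

open ModularCurve AlgebraicCurve

namespace Fermat.Agent.H68.ORD

open Fermat.Agent.H72.FF Fermat.Agent.H10.FF Fermat.Agent.H18.ORD Fermat.Agent.H66
open Fermat.Agent.H84.ORD Fermat.Agent.H37.FF

/-! ### The Gauss normal form of an inertia-fixed function -/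

/-- **Unramified Gauss normal form** (no reduction hypotheses): a nonzero inertia-fixed function
is `c • ι a / ι b` with `c` inertia-fixed and `ρ a ≠ 0`, `ρ b ≠ 0`. -/
theorem udn_gnf (N : ℕ) (A : ValuationSubring Qb) (f : FLb N) (hf0 : f ≠ 0)
    (hf : IsUnrFn A N f) :
    ∃ (c : Qb) (a b : LaurentSeries ↥A), c ≠ 0 ∧
      (∀ σ ∈ A.inertiaSubgroupIn ℚ, σ c = c) ∧ vRho A a ≠ 0 ∧ vRho A b ≠ 0 ∧
      (f : LaurentSeries Qb) * vIota A b = algebraMap Qb (LaurentSeries Qb) c * vIota A a := by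
  set K₀ := IntermediateField.fixedField (A.inertiaSubgroupIn ℚ) with hK₀
  set R' : ValuationSubring ↥K₀ := A.comap (algebraMap ↥K₀ Qb) with hR'
  have hfix : ∀ σ ∈ A.inertiaSubgroupIn ℚ,
      coeffMap ((σ : Qb ≃ₐ[ℚ] Qb) : Qb →+* Qb) (f : LaurentSeries Qb) = f :=
    fun σ hσ => congrArg Subtype.val (hf σ hσ)
  obtain ⟨f₁, hf₁, hf₁f⟩ := Fermat.Agent.H27.FF.fixedDescent (modularFunctionFieldFull N)
    (A.inertiaSubgroupIn ℚ) (f : LaurentSeries Qb) f.2 hfix
  have hf₁0 : f₁ ≠ 0 := by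
    rintro rfl
    rw [map_zero] at hf₁f
    exact hf0 (Subtype.ext hf₁f.symm)
  obtain ⟨c₁, a₁, b₁, hc₁, -, -, hra, hrb, h⟩ :=
    Fermat.Agent.H66.exists_gnf N R' hf₁ hf₁0
  have hcomp : (A.subtype : ↥A →+* Qb).comp (unrIncl A) =
      (algebraMap ↥K₀ Qb).comp R'.subtype := RingHom.ext fun _ => rfl
  have hι : ∀ y : LaurentSeries ↥R', vIota A (coeffMap (unrIncl A) y) =
      coeffMap (algebraMap ↥K₀ Qb) (vIota R' y) := by
    intro y
    show coeffMap A.subtype (coeffMap (unrIncl A) y) =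
      coeffMap (algebraMap ↥K₀ Qb) (coeffMap R'.subtype y)
    rw [coeffMap_coeffMap, coeffMap_coeffMap, hcomp]
  have hred : ∀ y : LaurentSeries ↥R', vRho R' y ≠ 0 →
      vRho A (coeffMap (unrIncl A) y) ≠ 0 := by
    intro y hy
    obtain ⟨m, hm⟩ := (vRho_ne_zero_iff R' y).mp hy
    exact (vRho_ne_zero_iff A _).mpr ⟨m, by rw [coeffMap_coeff]; exact hm.map (unrIncl A)⟩
  refine ⟨algebraMap ↥K₀ Qb c₁, coeffMap (unrIncl A) a₁, coeffMap (unrIncl A) b₁, ?_, ?_,
    hred a₁ hra, hred b₁ hrb, ?_⟩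
  · intro h0
    exact hc₁ ((map_eq_zero _).mp h0)
  · intro σ hσ
    exact (IntermediateField.mem_fixedField_iff _ _).mp c₁.2 σ hσ
  · rw [hι, hι, ← hf₁f, ← map_mul, h, map_mul, Fermat.Agent.H27.FF.coeffMap_algebraMap_hom]

/-! ### Divisibility in the Gauss ring of series -/

section Series

variable {L : Type*} [Field L] (A : ValuationSubring L)

/-- `c • ι a = ι (c a)` for `c ∈ A` -/
theorem udn_iota_smul (c : ↥A) (a : LaurentSeries ↥A) :
    algebraMap L (LaurentSeries L) (c : L) * vIota A a = vIota A (HahnSeries.C c * a) := by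
  rw [map_mul, algebraMap_eq_vIota]

theorem udn_rho_smul (c : ↥A) (a : LaurentSeries ↥A) :
    vRho A (HahnSeries.C c * a) =
      algebraMap (IsLocalRing.ResidueField ↥A) (LaurentSeries (IsLocalRing.ResidueField ↥A))
        (IsLocalRing.residue ↥A c) * vRho A a := by
  rw [map_mul, vRho_C]

/-- If `x * ι b = c • ι a` with `ρ b ≠ 0` and `d * c ∈ A`, then `d • x` lies in the Gauss
ring. -/
theorem udn_mul_mem (x : LaurentSeries L)
    (c d : L) (a b : LaurentSeries ↥A) (hb : vRho A b ≠ 0)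
    (h : x * vIota A b = algebraMap L (LaurentSeries L) c * vIota A a) (hd : d * c ∈ A) :
    algebraMap L (LaurentSeries L) d * x ∈ vGaussRing A := by
  refine ⟨HahnSeries.C ⟨d * c, hd⟩ * a, b, hb, ?_⟩
  rw [← udn_iota_smul, mul_assoc, h, ← mul_assoc, ← map_mul]

/-- If `x = c • ι a / ι b` (with `ρ a ≠ 0`) lies in the Gauss ring, then `c ∈ A`. -/
theorem udn_const_mem (x : LaurentSeries L)
    (hx : x ∈ vGaussRing A) (c : L) (a b : LaurentSeries ↥A) (ha : vRho A a ≠ 0)
    (h : x * vIota A b = algebraMap L (LaurentSeries L) c * vIota A a) :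
    c ∈ A := by
  by_contra hc
  have hc0 : c ≠ 0 := fun h0 => hc (h0 ▸ A.zero_mem)
  have hci : c⁻¹ ∈ A := (A.mem_or_inv_mem c).resolve_left hc
  have hnu : ¬ IsUnit (⟨c⁻¹, hci⟩ : ↥A) := by
    intro hu
    obtain ⟨w, hw⟩ := isUnit_iff_exists_inv.mp hu
    apply hc
    have h1 : c⁻¹ * (w : L) = 1 := congrArg Subtype.val hw
    have h2 : (w : L) = c := by
      have := congrArg (fun t => c * t) h1
      simp only [← mul_assoc, mul_inv_cancel₀ hc0, one_mul, mul_one] at this
      exact this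
    rw [← h2]
    exact w.2
  have hres : IsLocalRing.residue ↥A ⟨c⁻¹, hci⟩ = 0 := by
    rw [IsLocalRing.residue_eq_zero_iff, IsLocalRing.mem_maximalIdeal, mem_nonunits_iff]
    exact hnu
  obtain ⟨a', b', hb', hx'⟩ := hx
  have key : vIota A (a * b') = vIota A (HahnSeries.C ⟨c⁻¹, hci⟩ * a' * b) := by
    rw [map_mul, map_mul, ← udn_iota_smul, ← hx']
    have h3 : vIota A a = algebraMap L (LaurentSeries L) c⁻¹ * (x * vIota A b) := by
      rw [h, ← mul_assoc, ← map_mul, inv_mul_cancel₀ hc0, map_one, one_mul]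
    rw [h3]
    ring
  have key2 := congrArg (vRho A) (vIota_injective A key)
  rw [map_mul, map_mul, udn_rho_smul, hres, map_zero, zero_mul, zero_mul] at key2
  exact (mul_ne_zero ha hb') key2

/-- If moreover `x` reduces to zero, `c` is a nonunit. -/
theorem udn_const_res (x : LaurentSeries L)
    (hx : x ∈ vGaussRing A) (c : L) (hc : c ∈ A) (a b : LaurentSeries ↥A) (ha : vRho A a ≠ 0)
    (hb : vRho A b ≠ 0) (h : x * vIota A b = algebraMap L (LaurentSeries L) c * vIota A a)
    (h0 : vGaussRed A ⟨x, hx⟩ = 0) : IsLocalRing.residue ↥A ⟨c, hc⟩ = 0 := by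
  have h1 : x * vIota A b = vIota A (HahnSeries.C ⟨c, hc⟩ * a) := by
    rw [← udn_iota_smul, h]
  rw [vGaussRed_eq A ⟨x, hx⟩ _ b hb h1, udn_rho_smul, div_eq_zero_iff] at h0
  rcases h0 with h0 | h0
  · rcases mul_eq_zero.mp h0 with h2 | h2
    · exact (map_eq_zero _).mp h2
    · exact absurd h2 ha
  · exact absurd h0 hb

end Series

/-! ### [DIV] for the Gauss ring of `F_L` -/

/-- **[DIV] at `∞`, every level**: an inertia-fixed element of the Gauss ring with vanishing
reduction is divisible by `p` in the Gauss ring. -/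
theorem udn_div_gauss (p : ℕ) [Fact p.Prime] (N : ℕ) (A : ValuationSubring Qb)
    (hA : A.LiesOverPrime p) (u : FLb N) (h : u ∈ gaussOBar N A) (hu : IsUnrFn A N u)
    (hred : gaussRedBar N A ⟨u, h⟩ = 0) :
    algebraMap Qb (FLb N) (p : Qb)⁻¹ * u ∈ gaussOBar N A := by
  by_cases hu0 : u = 0
  · rw [hu0, mul_zero]
    exact (gaussOBar N A).zero_mem
  obtain ⟨c, a, b, hc0, hcI, ha, hb, hab⟩ := udn_gnf N A u hu0 hu
  have hx : (u : LaurentSeries Qb) ∈ vGaussRing A := (mem_gaussOBar_iff N A u).mp h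
  have hc : c ∈ A := udn_const_mem A (u : LaurentSeries Qb) hx c a b ha hab
  have hres0 : IsLocalRing.residue ↥A ⟨c, hc⟩ = 0 :=
    udn_const_res A (u : LaurentSeries Qb) hx c hc a b ha hb hab hred
  obtain ⟨n, v, hv, hv', hcv⟩ := ud_unit_mul_pow p A hA c hc0 hc hcI
  have hp0 : (p : Qb) ≠ 0 := Nat.cast_ne_zero.mpr (Fact.out : p.Prime).ne_zero
  have hv0 : v ≠ 0 := by
    rintro rfl
    rw [mul_zero] at hcv
    exact hc0 hcv
  have hn : n ≠ 0 := by
    rintro rfl
    rw [pow_zero, one_mul] at hcv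
    rw [IsLocalRing.residue_eq_zero_iff, IsLocalRing.mem_maximalIdeal, mem_nonunits_iff] at hres0
    apply hres0
    refine isUnit_iff_exists_inv.mpr ⟨⟨v⁻¹, hv'⟩, Subtype.ext ?_⟩
    show c * v⁻¹ = 1
    rw [hcv, mul_inv_cancel₀ hv0]
  obtain ⟨m, rfl⟩ := Nat.exists_eq_succ_of_ne_zero hn
  have hpA : (p : Qb) ∈ A := natCast_mem A p
  have hd : (p : Qb)⁻¹ * c ∈ A := by
    have e : (p : Qb)⁻¹ * c = (p : Qb) ^ m * v := by
      rw [hcv, pow_succ]
      field_simp
    rw [e]
    exact A.mul_mem _ _ (pow_mem hpA m) hv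
  rw [mem_gaussOBar_iff]
  have e : (((algebraMap Qb (FLb N) (p : Qb)⁻¹ * u : FLb N)) : LaurentSeries Qb) =
      algebraMap Qb (LaurentSeries Qb) (p : Qb)⁻¹ * (u : LaurentSeries Qb) := rfl
  rw [e]
  exact udn_mul_mem A (u : LaurentSeries Qb) c _ a b hb hab hd

/-! ### [DIV] for the nodal data of `X₀(M p)` -/

section Nodal

variable {M p : ℕ} [NeZero M] [NeZero p] {A : ValuationSubring Qb}

/-- **[DIV] at `∞`** for `nmG`. -/
theorem unrDivOo_nmG (h : NmSetup M p A) (htot : NmTot M p h.cop A) :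
    UnrDivOo p (nmG htot) := by
  haveI : Fact p.Prime := ⟨h.prime⟩
  intro u hu hI hred
  have hred' : gaussRedBar (M * p) A ⟨u, hu⟩ = 0 :=
    (nmRedOo_eq_zero_iff (M * p) A ⟨u, hu⟩).mp hred
  exact udn_div_gauss p (M * p) A h.liesOver u hu hI hred'

/-- **[DIV] at `0`** for `nmG`. -/
theorem unrDivZero_nmG (h : NmSetup M p A) (htot : NmTot M p h.cop A) :
    UnrDivZero p (nmG htot) := by
  haveI : Fact p.Prime := ⟨h.prime⟩
  intro u hu hI hred
  have hW : IsUnrFn A (M * p) (nmW M p h.cop u) := by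
    intro σ hσ
    rw [← Fermat.Agent.H74.ORD.nmW_galF_comm h.cop σ u, hI σ hσ]
  have hmem : nmW M p h.cop u ∈ gaussOBar (M * p) A := hu
  have hred' : gaussRedBar (M * p) A ⟨nmW M p h.cop u, hmem⟩ = 0 :=
    (nmRedOo_eq_zero_iff (M * p) A ⟨nmW M p h.cop u, hmem⟩).mp hred
  have key := udn_div_gauss p (M * p) A h.liesOver (nmW M p h.cop u) hmem hW hred'
  show nmW M p h.cop (algebraMap Qb (FLb (M * p)) (p : Qb)⁻¹ * u) ∈ gaussOBar (M * p) A
  rw [map_mul, AlgEquiv.commutes]
  exact key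

/-- **[DIV]** for `nmG` : the concrete input of helper18's `PairSemiDivStatement`. -/
theorem unrDiv_nmG (h : NmSetup M p A) (htot : NmTot M p h.cop A) :
    UnrDiv p (nmG htot) :=
  unrDiv_of_components (unrDivOo_nmG h htot) (unrDivZero_nmG h htot)

end Nodal

end Fermat.Agent.H68.ORD

end
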